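import Mathlib
import Fermat.Agent.LT.T7.H40.ArchProjSpec

/-!
# Row LT, tower T7, node T7.L2.1 `SupplyC`, leaf T7.L2.1.P1b `PosScalarC` (helper819), OFF-MAIN

Registry row 2167.  Spec: `LT/T7/H40/ArchProjSpec.lean` (helper40@6d20eda5a, sha256 34d7f8425284).

    posScalarC819 (K) : Fermat.Agent.LT.T7.H40.PosScalarC K        (VERBATIM, UNCONDITIONAL)

Route: extensionality of `GL₂(𝔸_K)` in the local components (the embedding of a completion in `ℂ`
is injective); a positive scalar `diag(ρ, ρ)` at `w` is `Z (Pi.single w (log ρ))`; every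
`Z (Pi.single w s)` is a positive scalar at `w`; `t = ∑_w Pi.single w (t w)` and `Z` is
multiplicative, so invariance under the positive scalars at every place gives invariance under
every `Z t` (induction on a finite set of places).
-/

set_option autoImplicit false

open IsDedekindDomain NumberField

noncomputable section

namespace Fermat.Agent.LT.T7.H819

open Fermat.Agent.LT.H556 Fermat.Agent.LT.H556.A0 Fermat.Agent.LT.T7 Fermat.Agent.LT.T7.H40

variable {K : Type} [Field K] [NumberField K]

/-- Extensionality of `GL₂(𝔸_K)` in the local components. -/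
theorem g_ext819 {g h : G K}
    (hI : ∀ (w : InfinitePlace K) (i j : Fin 2),
      ((g : Matrix (Fin 2) (Fin 2) (Adl K)) i j).1 w =
        ((h : Matrix (Fin 2) (Fin 2) (Adl K)) i j).1 w)
    (hF : ∀ v : HeightOneSpectrum (𝓞 K), finComp v g = finComp v h) : g = h := by
  apply Units.ext
  refine Matrix.ext fun i j => ?_
  refine Prod.ext (funext fun w => hI w i j) ?_
  exact RestrictedProduct.ext _ _ (fun v => congrFun (congrFun (hF v) i) j)

omit [NumberField K] in
/-- The embedding of the completion at `w` in `ℂ` is injective. -/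
theorem emb_injective819 (w : InfinitePlace K) :
    Function.Injective (InfinitePlace.Completion.extensionEmbedding w) :=
  (InfinitePlace.Completion.extensionEmbedding w).injective

/-- Equal components in `ℂ` give equal raw components. -/
theorem raw_eq_of_infComp_eq819 {w : InfinitePlace K} {g h : G K}
    (hgh : infComp w g = infComp w h) (i j : Fin 2) :
    ((g : Matrix (Fin 2) (Fin 2) (Adl K)) i j).1 w =
      ((h : Matrix (Fin 2) (Fin 2) (Adl K)) i j).1 w :=
  emb_injective819 w (congrFun (congrFun hgh i) j)

/-- A matrix whose component in `ℂ` at `w` is the identity is trivial at `w`. -/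
theorem trivAtInf_of_infComp_eq_one819 {w : InfinitePlace K} {g : G K}
    (hg : infComp w g = 1) : TrivAtInf w g := by
  intro i j
  apply emb_injective819 w
  have h1 : InfinitePlace.Completion.extensionEmbedding w
      (((g : Matrix (Fin 2) (Fin 2) (Adl K)) i j).1 w) = (1 : Matrix (Fin 2) (Fin 2) ℂ) i j :=
    congrFun (congrFun hg i) j
  rw [h1]
  by_cases hij : i = j
  · subst hij
    simp
  · simp [Matrix.one_apply_ne hij]

/-- The component in `ℂ` of a matrix which is trivial at `w` is the identity. -/
theorem infComp_eq_one_of_trivAtInf819 {w : InfinitePlace K} {g : G K}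
    (hg : TrivAtInf w g) : infComp w g = 1 := by
  refine Matrix.ext fun i j => ?_
  show InfinitePlace.Completion.extensionEmbedding w
      (((g : Matrix (Fin 2) (Fin 2) (Adl K)) i j).1 w) = (1 : Matrix (Fin 2) (Fin 2) ℂ) i j
  rw [hg i j]
  by_cases hij : i = j
  · subst hij
    simp
  · simp [Matrix.one_apply_ne hij]

/-- `diag(1, 1) = 1`. -/
theorem diagonal_exp_zero819 :
    Matrix.diagonal (fun _ : Fin 2 => ((Real.exp (0 : ℝ) : ℝ) : ℂ)) = 1 := by
  rw [Real.exp_zero]
  simp

section Family

variable {Z : (InfinitePlace K → ℝ) → G K}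

/-- `Z 0 = 1`. -/
theorem Z_zero819 (hZ : IsPosFamily40 Z) : Z 0 = 1 := by
  have h := hZ.mul 0 0
  rw [add_zero] at h
  exact (mul_eq_left (a := Z 0) (b := Z 0)).mp h.symm

open Classical in
/-- `Z (s e_w)` is a positive scalar at `w`. -/
theorem isArchPosScalar_single819 (hZ : IsPosFamily40 Z) (w : InfinitePlace K) (s : ℝ) :
    IsArchPosScalar w (Z (Pi.single w s)) := by
  refine ⟨⟨fun w' hw' => ?_, fun v => hZ.fin_triv _ v⟩, Real.exp s, Real.exp_pos s, ?_⟩
  · apply trivAtInf_of_infComp_eq_one819
    rw [hZ.inf_comp, Pi.single_eq_of_ne hw']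
    exact diagonal_exp_zero819
  · rw [hZ.inf_comp, Pi.single_eq_same]

open Classical in
/-- Every positive scalar at `w` is a value of `Z`. -/
theorem exists_eq_Z819 (hZ : IsPosFamily40 Z) (w : InfinitePlace K) (z : G K)
    (hz : IsArchPosScalar w z) : ∃ t : InfinitePlace K → ℝ, z = Z t := by
  obtain ⟨⟨hinf, hfin⟩, r, hr, hcomp⟩ := hz
  refine ⟨Pi.single w (Real.log r), g_ext819 (fun w' i j => ?_) (fun v => ?_)⟩
  · by_cases hw' : w' = w
    · subst hw'
      apply raw_eq_of_infComp_eq819
      rw [hcomp, hZ.inf_comp, Pi.single_eq_same, Real.exp_log hr]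
    · apply raw_eq_of_infComp_eq819
      rw [infComp_eq_one_of_trivAtInf819 (hinf w' hw'), hZ.inf_comp,
        Pi.single_eq_of_ne hw']
      exact diagonal_exp_zero819.symm
  · have h1 : finComp v z = 1 := hfin v
    have h2 : finComp v (Z (Pi.single w (Real.log r))) = 1 := hZ.fin_triv _ v
    rw [h1, h2]

open Classical in
/-- Invariance under the positive scalars at every place gives invariance under `Z t` for the
partial sums of `t = ∑_w t_w e_w`. -/
theorem inv_partial819 (hZ : IsPosFamily40 Z) (χ : G K → ℂ) (hχ : IsPosInv χ)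
    (t : InfinitePlace K → ℝ) (s : Finset (InfinitePlace K)) :
    ∀ g : G K, χ (g * Z (∑ w ∈ s, Pi.single w (t w))) = χ g := by
  induction s using Finset.induction_on with
  | empty =>
    intro g
    rw [Finset.sum_empty, Z_zero819 hZ, mul_one]
  | insert a s ha ih =>
    intro g
    rw [Finset.sum_insert ha, hZ.mul, ← mul_assoc, ih,
      hχ a _ (isArchPosScalar_single819 hZ a (t a))]

open Classical in
/-- Invariance under the positive scalars at every place gives invariance under every `Z t`. -/
theorem inv_Z819 (hZ : IsPosFamily40 Z) (χ : G K → ℂ) (hχ : IsPosInv χ)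
    (t : InfinitePlace K → ℝ) (g : G K) : χ (g * Z t) = χ g := by
  have h := inv_partial819 hZ χ hχ t Finset.univ g
  rwa [Finset.univ_sum_single t] at h

end Family

/-- **LEAF T7.L2.1.P1b `PosScalarC`**, VERBATIM, UNCONDITIONAL, for every number field. -/
theorem posScalarC819 (K : Type) [Field K] [NumberField K] : PosScalarC K :=
  fun _ hZ => ⟨fun w z hz => exists_eq_Z819 hZ w z hz, fun χ hχ t g => inv_Z819 hZ χ hχ t g⟩

end Fermat.Agent.LT.T7.H819

end
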